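import Mathlib

/-!
# Tensor products of domains over an algebraically closed field

`K` algebraically closed, `A`, `B` commutative `K`-algebras.

* `Fermat.Agent.S26.Var.isDomain_tensorProduct` : `A`, `B` domains `⟹` `A ⊗[K] B` is a domain.
* `Fermat.Agent.S26.Var.isReduced_tensorProduct` : `A`, `B` reduced `⟹` `A ⊗[K] B` is reduced.

No finiteness hypotheses.  (Classical proof: reduce to `A` of finite type, then evaluate at the
`K`-points of `A`, which separate the elements of a reduced finite type `K`-algebra.)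
-/

set_option autoImplicit false

namespace Fermat.Agent.S26.Var

open TensorProduct

section KPoints

variable {K A : Type*} [Field K] [IsAlgClosed K] [CommRing A] [Algebra K A]
  [Algebra.FiniteType K A]

/-- Nullstellensatz: a maximal ideal of a finite type algebra over an algebraically closed
field is the kernel of a `K`-point. -/
theorem exists_algHom_ker_eq_of_isMaximal (m : Ideal A) [hm : m.IsMaximal] :
    ∃ φ : A →ₐ[K] K, ∀ a : A, φ a = 0 ↔ a ∈ m := by
  let _ := Ideal.Quotient.field m
  have := finite_of_finite_type_of_isJacobsonRing K (A ⧸ m)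
  have : Algebra.IsIntegral K (A ⧸ m) := Algebra.IsIntegral.of_finite K (A ⧸ m)
  have hbij : Function.Bijective (algebraMap K (A ⧸ m)) :=
    IsAlgClosed.algebraMap_bijective_of_isIntegral
  let e : K ≃ₐ[K] (A ⧸ m) := AlgEquiv.ofBijective (Algebra.ofId K (A ⧸ m)) hbij
  refine ⟨e.symm.toAlgHom.comp (Ideal.Quotient.mkₐ K m), fun a => ?_⟩
  simp [Ideal.Quotient.eq_zero_iff_mem]

/-- In a reduced finite type algebra over an algebraically closed field, a nonzero element is
nonzero at some `K`-point. -/
theorem exists_algHom_apply_ne_zero [IsReduced A] {a : A} (ha : a ≠ 0) :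
    ∃ φ : A →ₐ[K] K, φ a ≠ 0 := by
  have hJ : IsJacobsonRing A := isJacobsonRing_of_finiteType (A := K)
  have h0 : Ideal.jacobson (⊥ : Ideal A) = ⊥ :=
    hJ.out (Ideal.isRadical_bot_iff.mpr inferInstance)
  have ha' : a ∉ Ideal.jacobson (⊥ : Ideal A) := by rw [h0]; simpa using ha
  rw [Ideal.jacobson, Ideal.mem_sInf] at ha'
  push Not at ha'
  obtain ⟨m, ⟨-, hm⟩, ham⟩ := ha'
  obtain ⟨φ, hφ⟩ := exists_algHom_ker_eq_of_isMaximal (K := K) m
  exact ⟨φ, fun h => ham ((hφ a).mp h)⟩

end KPoints

section Eval

variable {K A B : Type*} [Field K] [CommRing A] [Algebra K A] [CommRing B] [Algebra K B]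

/-- Evaluation of the first tensor factor at a `K`-point of `A`. -/
noncomputable def evalAt (φ : A →ₐ[K] K) : A ⊗[K] B →ₐ[K] B :=
  (Algebra.TensorProduct.lid K B).toAlgHom.comp (Algebra.TensorProduct.map φ (AlgHom.id K B))

theorem evalAt_tmul (φ : A →ₐ[K] K) (a : A) (b : B) :
    evalAt φ (a ⊗ₜ[K] b) = φ a • b := by
  simp [evalAt]

theorem repr_evalAt {ι : Type*} (b : Module.Basis ι K B) (φ : A →ₐ[K] K) (x : A ⊗[K] B) (i : ι) :
    b.repr (evalAt φ x) i = φ ((Algebra.TensorProduct.basis A b).repr x i) := by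
  induction x using TensorProduct.induction_on with
  | zero => simp
  | tmul a c =>
    rw [evalAt_tmul]
    simp
  | add x y hx hy => simp [hx, hy]

end Eval

section Main

variable {K A B : Type*} [Field K] [IsAlgClosed K] [CommRing A] [Algebra K A]
  [CommRing B] [Algebra K B]

/-- Finite type case of `isDomain_tensorProduct`. -/
theorem mul_eq_zero_of_finiteType [Algebra.FiniteType K A] [IsDomain A] [IsDomain B]
    {x y : A ⊗[K] B} (hxy : x * y = 0) : x = 0 ∨ y = 0 := by
  by_contra hne
  push Not at hne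
  obtain ⟨hx, hy⟩ := hne
  let b := Module.Free.chooseBasis K B
  let bA := Algebra.TensorProduct.basis A b
  have hx' : bA.repr x ≠ 0 := by simpa using hx
  have hy' : bA.repr y ≠ 0 := by simpa using hy
  obtain ⟨i, hi⟩ := Finsupp.ne_iff.mp hx'
  obtain ⟨j, hj⟩ := Finsupp.ne_iff.mp hy'
  have hij : bA.repr x i * bA.repr y j ≠ 0 :=
    mul_ne_zero (by simpa using hi) (by simpa using hj)
  obtain ⟨φ, hφ⟩ := exists_algHom_apply_ne_zero (K := K) hij
  have h1 : evalAt φ x * evalAt φ y = 0 := by rw [← map_mul, hxy, map_zero]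
  rcases mul_eq_zero.mp h1 with h | h
  · have h2 := repr_evalAt b φ x i
    rw [h] at h2
    exact hφ (by rw [map_mul, ← h2]; simp)
  · have h2 := repr_evalAt b φ y j
    rw [h] at h2
    exact hφ (by rw [map_mul, ← h2]; simp)

/-- Finite type case of `isReduced_tensorProduct`. -/
theorem eq_zero_of_isNilpotent_of_finiteType [Algebra.FiniteType K A] [IsReduced A]
    [IsReduced B] {x : A ⊗[K] B} (hx : IsNilpotent x) : x = 0 := by
  let b := Module.Free.chooseBasis K B
  let bA := Algebra.TensorProduct.basis A b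
  by_contra hne
  have hx' : bA.repr x ≠ 0 := by simpa using hne
  obtain ⟨i, hi⟩ := Finsupp.ne_iff.mp hx'
  obtain ⟨φ, hφ⟩ := exists_algHom_apply_ne_zero (K := K) (a := bA.repr x i) (by simpa using hi)
  have h1 : evalAt φ x = 0 := (hx.map (evalAt φ)).eq_zero
  have h2 := repr_evalAt b φ x i
  rw [h1] at h2
  exact hφ (by rw [← h2]; simp)

omit [IsAlgClosed K] in
/-- Any two elements of `A ⊗[K] B` come from `A' ⊗[K] B` for a finitely generated subalgebra
`A'` of `A`. -/
theorem exists_fg_subalgebra_tmul (x y : A ⊗[K] B) :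
    ∃ (A' : Subalgebra K A), A'.FG ∧ ∃ x' y' : A' ⊗[K] B,
      Algebra.TensorProduct.map A'.val (AlgHom.id K B) x' = x ∧
      Algebra.TensorProduct.map A'.val (AlgHom.id K B) y' = y := by
  classical
  obtain ⟨Sx, rfl⟩ := TensorProduct.exists_finset x
  obtain ⟨Sy, rfl⟩ := TensorProduct.exists_finset y
  let T : Finset A := (Sx ∪ Sy).image Prod.fst
  have hT : ∀ p ∈ Sx ∪ Sy, p.1 ∈ Algebra.adjoin K (T : Set A) := fun p hp =>
    Algebra.subset_adjoin (Finset.mem_coe.mpr (Finset.mem_image_of_mem _ hp))
  refine ⟨Algebra.adjoin K (T : Set A), Subalgebra.fg_adjoin_finset T,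
    ∑ p ∈ Sx.attach, (⟨p.1.1, hT p.1 (Finset.mem_union_left _ p.2)⟩ :
      Algebra.adjoin K (T : Set A)) ⊗ₜ[K] p.1.2,
    ∑ p ∈ Sy.attach, (⟨p.1.1, hT p.1 (Finset.mem_union_right _ p.2)⟩ :
      Algebra.adjoin K (T : Set A)) ⊗ₜ[K] p.1.2, ?_, ?_⟩
  · rw [map_sum]
    simp only [Algebra.TensorProduct.map_tmul, Subalgebra.coe_val, AlgHom.coe_id, id_eq]
    exact Finset.sum_attach Sx (fun p => p.1 ⊗ₜ[K] p.2)
  · rw [map_sum]
    simp only [Algebra.TensorProduct.map_tmul, Subalgebra.coe_val, AlgHom.coe_id, id_eq]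
    exact Finset.sum_attach Sy (fun p => p.1 ⊗ₜ[K] p.2)

omit [IsAlgClosed K] in
theorem map_val_injective (A' : Subalgebra K A) :
    Function.Injective (Algebra.TensorProduct.map A'.val (AlgHom.id K B)) := by
  have h : Function.Injective (LinearMap.rTensor B A'.val.toLinearMap) :=
    Module.Flat.rTensor_preserves_injective_linearMap _ Subtype.val_injective
  intro x y hxy
  apply h
  have key : ∀ z : A' ⊗[K] B, LinearMap.rTensor B A'.val.toLinearMap z =
      Algebra.TensorProduct.map A'.val (AlgHom.id K B) z := by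
    intro z
    induction z using TensorProduct.induction_on with
    | zero => simp
    | tmul a c => simp
    | add x y hx hy => simp only [map_add, hx, hy]
  rw [key, key, hxy]

/-- Over an algebraically closed field, the tensor product of two domains is a domain. -/
theorem isDomain_tensorProduct [IsDomain A] [IsDomain B] : IsDomain (A ⊗[K] B) := by
  have hnt : Nontrivial (A ⊗[K] B) :=
    (Algebra.TensorProduct.includeLeft_injective (R := K) (S := K) (A := A) (B := B)
      (FaithfulSMul.algebraMap_injective K B)).nontrivial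
  have hnzd : NoZeroDivisors (A ⊗[K] B) := by
    refine ⟨fun {x y} hxy => ?_⟩
    obtain ⟨A', hfg, x', y', rfl, rfl⟩ := exists_fg_subalgebra_tmul x y
    have : Algebra.FiniteType K A' := (Subalgebra.fg_iff_finiteType A').mp hfg
    have hinj := map_val_injective (B := B) A'
    have hxy' : x' * y' = 0 := hinj (by rw [map_mul, hxy, map_zero])
    rcases mul_eq_zero_of_finiteType hxy' with h | h
    · left; rw [h, map_zero]
    · right; rw [h, map_zero]
  exact NoZeroDivisors.to_isDomain _

/-- Over an algebraically closed field, the tensor product of two reduced algebras is reduced. -/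
theorem isReduced_tensorProduct [IsReduced A] [IsReduced B] : IsReduced (A ⊗[K] B) := by
  refine ⟨fun x hx => ?_⟩
  obtain ⟨A', hfg, x', -, rfl, -⟩ := exists_fg_subalgebra_tmul x x
  have : Algebra.FiniteType K A' := (Subalgebra.fg_iff_finiteType A').mp hfg
  have hinj := map_val_injective (B := B) A'
  have hx' : IsNilpotent x' := by
    obtain ⟨n, hn⟩ := hx
    exact ⟨n, hinj (by rw [map_pow, hn, map_zero])⟩
  have : IsReduced A' := isReduced_of_injective A'.val Subtype.val_injective
  rw [eq_zero_of_isNilpotent_of_finiteType hx', map_zero]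

end Main

end Fermat.Agent.S26.Var
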